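import Fermat.Agent.S55.G.Rec.Loc.H483.InertiaSpec

/-!
# S55 / G / REC / LOC : sub-leaves of LOC-UNIF (`UnifSpec`)   — FROZEN INTERFACE

Sub-architect: helper477.  Glue: `Loc/Unif/Glue.lean` (helper477) proves

  `unif_of : CharDescentSpec → UnramDictSpec → FrobDictSpec → UnifDictSpec → UnifSpec`

using the closed layer L (`L.Closed.inv`, `L.UnrInv.exists_unrPack`, `frob_unique`) and the
abstract cyclic computation `Loc/Unif/Cyc.lean`.

Notation: `K = fixedFld q V` (`V` open), `E₀` a finite Galois level of `K` inside `ℚ̄_q`.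
Everything on the left of an implication is NORM-based (`G.Rec` vocabulary: `IsInertial`,
`IsFrobenius`, `IsUniformizer`), everything on the right is VALUATION-SUBRING-based (layer L
vocabulary: `L.IsUnramifiedExt`, `L.IsFrobeniusElt`, `L.IsUniformizer`).

Material on main: `Loc/H483/{NormInt,InertiaLift,UnramLevel,Unram,UnramClosed}.lean`,
`Loc/UnramH294.lean` (resHom_surjective, resHom_eq_one_iff, exists_descent),
`L/Inst63.lean` (`unitBall63`, `isLocalRingOfIntegers_unitBall63`, `nontriviallyNormedField63`),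
`L/H715/Dict1.lean`, `Dict2.lean`, `G/Rec/L2H664`, `G/Rec/L2H931` (residue degree, Frobenius).
-/

set_option autoImplicit false

noncomputable section

namespace Fermat.Agent.S55.G.Rec.Loc.Unif

open groupCohomology Fermat.Agent.S55.G.Rec Fermat.Agent.S55.G.Rec.Loc

/-- **UNIF-A** descent of the character: if the cup cocycle `π ∪ δχ` of an unramified character
`χ : V → ℤ/n` is a LEVEL cocycle, then `χ` factors through `Gal(E₀/K)` for a finite Galois
UNRAMIFIED level `E₀`.
(Proof: `c` is inflated from a level `E` (LOC-DESC); for `σ, τ ∈ ker(V → Gal(E/K))`,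
`carry χ σ τ • π = c (σ, τ) = c (1, 1) = 0`, and `π` has infinite order, so `χ` kills
`ker(V → Gal(E/K))`; `χ` kills the inertial elements; conclude with `H483.unramLevel`.) -/
def CharDescentSpec : Prop :=
  ∀ (q : ℕ) [Fact q.Prime] (V : Subgroup (PadicAlgCl q ≃ₐ[ℚ_[q]] PadicAlgCl q)),
    IsOpenL q V → ∀ (n : ℕ) [NeZero n] (χ : ↥V →* Multiplicative (ZMod n)),
      (∀ τ : ↥V, IsInertial q (τ : PadicAlgCl q ≃ₐ[ℚ_[q]] PadicAlgCl q) → χ τ = 1) →
      ∀ π : (PadicAlgCl q)ˣ, IsUniformizer q V (π : PadicAlgCl q) →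
      ∀ c : ↥(levelCocycles₂ (lHom q V) (lModOn q V)),
        IsCupChar (toLMod q V π) χ (c : ↥V × ↥V → lModOn q V) →
        ∃ (E₀ : IntermediateField (fixedFld q V) (PadicAlgCl q))
          (_ : FiniteDimensional (fixedFld q V) E₀) (_ : IsGalois (fixedFld q V) E₀)
          (χ₀ : (E₀ ≃ₐ[fixedFld q V] E₀) →* Multiplicative (ZMod n)),
          Fermat.Agent.S55.Local.IsUnram ℤ_[q] ℚ_[q] E₀ (fixedFld q V) ∧
            ∀ g : ↥V, χ g = χ₀ (resHom q V E₀ g)

/-- **UNIF-B1** dictionary, unramified: `Local.IsUnram` (base `(ℤ_q, ℚ_q)`) implies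
`L.IsUnramifiedExt` for a finite level `E₀ / K`. -/
def UnramDictSpec : Prop :=
  ∀ (q : ℕ) [Fact q.Prime] (V : Subgroup (PadicAlgCl q ≃ₐ[ℚ_[q]] PadicAlgCl q)),
    IsOpenL q V →
    ∀ (E₀ : IntermediateField (fixedFld q V) (PadicAlgCl q))
      [FiniteDimensional (fixedFld q V) E₀],
      Fermat.Agent.S55.Local.IsUnram ℤ_[q] ℚ_[q] E₀ (fixedFld q V) →
        L.IsUnramifiedExt (fixedFld q V) E₀

/-- **UNIF-B2** dictionary, Frobenius: the restriction to a finite Galois level `E₀ / K` of a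
Frobenius element of `V` (norm description, residue degree `f` with `IsResidueDegree q V f`) is a
Frobenius element in the sense of layer L (`x ↦ x ^ |k_K|` modulo the maximal ideal).
(Key point: `Nat.card (ResidueField A_K) = q ^ f`.) -/
def FrobDictSpec : Prop :=
  ∀ (q : ℕ) [Fact q.Prime] (V : Subgroup (PadicAlgCl q ≃ₐ[ℚ_[q]] PadicAlgCl q)),
    IsOpenL q V →
    ∀ (E₀ : IntermediateField (fixedFld q V) (PadicAlgCl q))
      [FiniteDimensional (fixedFld q V) E₀] [IsGalois (fixedFld q V) E₀]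
      (φ : PadicAlgCl q ≃ₐ[ℚ_[q]] PadicAlgCl q) (hφ : IsFrobenius q V φ),
      L.IsFrobeniusElt (fixedFld q V) E₀ (resHom q V E₀ ⟨φ, hφ.1⟩)

/-- **UNIF-B3** dictionary, uniformizer: a uniformizer of `K = K_V` in the norm sense is (the
image of) a uniformizer `π_K : Kˣ` of a ring of integers of `K` in the sense of layer L. -/
def UnifDictSpec : Prop :=
  ∀ (q : ℕ) [Fact q.Prime] (V : Subgroup (PadicAlgCl q ≃ₐ[ℚ_[q]] PadicAlgCl q)),
    IsOpenL q V →
    ∀ π : (PadicAlgCl q)ˣ, IsUniformizer q V (π : PadicAlgCl q) →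
      ∃ (A : ValuationSubring (fixedFld q V)) (πK : (fixedFld q V)ˣ),
        L.IsLocalRingOfIntegers A ∧ L.IsUniformizer A (πK : fixedFld q V) ∧
          (((πK : fixedFld q V) : PadicAlgCl q)) = (π : PadicAlgCl q)

end Fermat.Agent.S55.G.Rec.Loc.Unif
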