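import Fermat.Agent.S55.G.Rec.Loc.Unif.Spec
import Fermat.Agent.S55.G.Rec.Loc.H483.UnramLevel
import Fermat.Agent.S55.G.Rec.Loc.OpenH478
import Fermat.Agent.S55.G.Rec.Loc.DescentH894

/-!
# S55 / G / REC / LOC / UNIF : leaf UNIF-A (`CharDescentSpec`)   — helper832

`charDescent : CharDescentSpec` (unconditional).

If the cup cochain `π ∪ δχ` of a character `χ : V → ℤ/n` killing the inertial elements is a level
cocycle, then `χ` factors through `Gal(E₀/K_V)` for a finite Galois unramified level `E₀`.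

Proof.  By LOC-DESC (`H894.descent`) the cocycle `c` is inflated from a finite Galois level `E`.
For `g ∈ ker (V → Gal(E/K_V))` we get `c (g, g⁻¹) = c (1, 1) = 0`; if `χ g ≠ 1` the carry of
`χ g` and `χ g⁻¹` is `1`, so `π = 1`, contradicting `‖π‖ < 1`.  Hence `χ` kills
`ker (V → Gal(E/K_V))` and the inertial elements, i.e. (by `H483.unramLevel_of`) the kernel of
`V → Gal(E₀/K_V)`, `E₀` the maximal unramified sublevel of `E`; `V → Gal(E₀/K_V)` is onto.
-/

set_option autoImplicit false

noncomputable section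

namespace Fermat.Agent.S55.G.Rec.Loc.Unif.H832

open groupCohomology Fermat.Agent.S55.G.Rec Fermat.Agent.S55.G.Rec.Loc

/-- The carry of `a` and `-a` is `1` for `a ≠ 0`. -/
lemma carry_neg_eq_one {n : ℕ} [NeZero n] (a : ZMod n) (ha : a ≠ 0) :
    (a.val + (-a).val) / n = 1 := by
  rw [ZMod.neg_val, if_neg ha, Nat.add_sub_cancel' (ZMod.val_lt a).le]
  exact Nat.div_self (NeZero.pos n)

/-- **UNIF-A**. -/
theorem charDescent : CharDescentSpec := by
  intro q _ V hV n _ χ hχ π hπ c hc
  -- Step 1: `c` is inflated from a finite Galois level `E`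
  obtain ⟨E, hEfd, hEgal, f, -, hf⟩ := H894.descent q V hV c ⊥ inferInstance
  have := hEfd
  have := hEgal
  -- Step 2: `χ` kills the kernel of `V → Gal(E/K_V)`
  have hker : ∀ g : ↥V, resHom q V E g = 1 → χ g = 1 := by
    intro g hg
    by_contra hne
    have h1 : (c : ↥V × ↥V → lModOn q V) (g, g⁻¹) = (c : ↥V × ↥V → lModOn q V) (1, 1) := by
      rw [hf]
      simp only [inflCochain₂, map_inv, hg, inv_one, map_one]
    have h3 : (c : ↥V × ↥V → lModOn q V) (1, 1) = 0 := by
      rw [hc 1 1]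
      simp
    have ha : Multiplicative.toAdd (χ g) ≠ 0 := by
      intro h0
      apply hne
      have : χ g = Multiplicative.ofAdd (Multiplicative.toAdd (χ g)) := rfl
      rw [this, h0]
      rfl
    have h2 : (c : ↥V × ↥V → lModOn q V) (g, g⁻¹) = toLMod q V π := by
      rw [hc g g⁻¹, map_inv, toAdd_inv, carry_neg_eq_one _ ha, one_smul]
    rw [h2, h3] at h1
    -- `π = 1`, contradiction with `‖π‖ < 1`
    have hπ1 : π = 1 := by
      have h4 : Additive.toMul (toLMod q V π) = Additive.toMul (0 : lModOn q V) :=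
        congrArg Additive.toMul h1
      exact h4
    have hlt := hπ.2.2.1
    rw [hπ1] at hlt
    simp at hlt
  -- Step 3: the unramified sublevel
  obtain ⟨E₀, hE₀fd, hE₀gal, -, hunr, hkerE₀⟩ :=
    H483.unramLevel_of H478.openSpec q V hV E
  have := hE₀fd
  have := hE₀gal
  have hsurj : Function.Surjective (resHom q V E₀) := H894.resHom_surjective q V hV E₀
  have hle : (resHom q V E₀).ker ≤ χ.ker := by
    intro w hw
    rw [MonoidHom.mem_ker] at hw ⊢
    obtain ⟨i, m, hi, hm, rfl⟩ := (hkerE₀ w).1 hw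
    rw [map_mul, hχ i hi, hker m hm, mul_one]
  refine ⟨E₀, hE₀fd, hE₀gal, (resHom q V E₀).liftOfSurjective hsurj ⟨χ, hle⟩, hunr, ?_⟩
  intro g
  exact ((resHom q V E₀).liftOfRightInverse_comp_apply _ _ ⟨χ, hle⟩ g).symm

end Fermat.Agent.S55.G.Rec.Loc.Unif.H832
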