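import Fermat.Agent.S55.G.Rec.H473Cyclic

/-!
# S55 / G / REC / LOC-UNIF : the abstract cyclic computation   (helper477)

`G = ⟨σ⟩` finite cyclic of order `d`, `ψ : G → ℤ/d` the character with `ψ σ = 1`,
`χ : G → ℤ/n` ANY character, `a ∈ A^G`.  Then `cc A χ a = m • cc A ψ a` with
`m * n = χ̃(σ) * d`  (so that `m / d = χ̃(σ) / n`).

Method: change of modulus.  For `n ∣ N` the map `ZMod n → ZMod N`, `x ↦ (N / n) x`, does not
change the carry of a character, hence not the cocycle `cupChar`; inside `ZMod (n * d)` the two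
characters are powers of each other (`cc_pow`).
-/

set_option autoImplicit false

namespace Fermat.Agent.S55.G.Rec.Loc.Unif

open groupCohomology Fermat.Agent.S55.G.Rec

section Scale

variable {n N : ℕ}

/-- Multiplication by `N / n` as a homomorphism `ZMod n → ZMod N` (`n ∣ N`). -/
noncomputable def scaleAdd (h : n ∣ N) : ZMod n →+ ZMod N :=
  ZMod.lift n ⟨zmultiplesHom (ZMod N) (((N / n : ℕ)) : ZMod N), by
    change (n : ℤ) • (((N / n : ℕ)) : ZMod N) = 0
    rw [natCast_zsmul, nsmul_eq_mul, ← Nat.cast_mul, Nat.mul_div_cancel' h, ZMod.natCast_self]⟩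

lemma scaleAdd_natCast (h : n ∣ N) (k : ℕ) :
    scaleAdd h (k : ZMod n) = ((k * (N / n) : ℕ) : ZMod N) := by
  have h1 : scaleAdd h (((k : ℤ)) : ZMod n) = (k : ℤ) • (((N / n : ℕ)) : ZMod N) :=
    ZMod.lift_coe n _ (k : ℤ)
  rw [Int.cast_natCast] at h1
  rw [h1, natCast_zsmul, nsmul_eq_mul, Nat.cast_mul]

lemma val_scaleAdd [NeZero n] [NeZero N] (h : n ∣ N) (x : ZMod n) :
    (scaleAdd h x).val = (N / n) * x.val := by
  have hx : x = ((x.val : ℕ) : ZMod n) := (ZMod.natCast_zmod_val x).symm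
  have hn : 0 < n := Nat.pos_of_ne_zero (NeZero.ne n)
  conv_lhs => rw [hx]
  rw [scaleAdd_natCast, ZMod.val_natCast, Nat.mod_eq_of_lt, mul_comm]
  calc x.val * (N / n) < n * (N / n) := by
        apply Nat.mul_lt_mul_of_pos_right (ZMod.val_lt x)
        exact Nat.div_pos (Nat.le_of_dvd (Nat.pos_of_ne_zero (NeZero.ne N)) h) hn
    _ = N := Nat.mul_div_cancel' h

variable {G : Type} [Group G]

/-- The character `χ` with values rescaled into `ZMod N`. -/
noncomputable def scaleChar (h : n ∣ N) (χ : G →* Multiplicative (ZMod n)) :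
    G →* Multiplicative (ZMod N) :=
  (AddMonoidHom.toMultiplicative (scaleAdd h)).comp χ

lemma toAdd_scaleChar (h : n ∣ N) (χ : G →* Multiplicative (ZMod n)) (g : G) :
    Multiplicative.toAdd (scaleChar h χ g) = scaleAdd h (Multiplicative.toAdd (χ g)) := rfl

lemma lift_scaleChar [NeZero n] [NeZero N] (h : n ∣ N) (χ : G →* Multiplicative (ZMod n))
    (g : G) : lift (scaleChar h χ) g = (N / n) * lift χ g := by
  unfold lift
  rw [toAdd_scaleChar, val_scaleAdd]

lemma carry_scaleChar [NeZero n] [NeZero N] (h : n ∣ N) (χ : G →* Multiplicative (ZMod n))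
    (g g' : G) : carry (scaleChar h χ) g g' = carry χ g g' := by
  have hn : 0 < n := Nat.pos_of_ne_zero (NeZero.ne n)
  have hN : 0 < N := Nat.pos_of_ne_zero (NeZero.ne N)
  have ht : 0 < N / n := Nat.div_pos (Nat.le_of_dvd hN h) hn
  have hNn : N = N / n * n := (Nat.div_mul_cancel h).symm
  unfold carry
  rw [lift_scaleChar, lift_scaleChar, ← mul_add]
  calc N / n * (lift χ g + lift χ g') / N
      = N / n * (lift χ g + lift χ g') / (N / n * n) := by rw [← hNn]
    _ = (lift χ g + lift χ g') / n := Nat.mul_div_mul_left _ _ ht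

variable {k : Type} [CommRing k]

lemma cupChar_scaleChar [NeZero n] [NeZero N] (h : n ∣ N) (A : Rep.{0} k G)
    (χ : G →* Multiplicative (ZMod n)) (a : A.ρ.invariants) :
    cupChar A (scaleChar h χ) a = cupChar A χ a := by
  apply cocycles₂_ext
  intro g g'
  rw [cupChar_apply, cupChar_apply, carry_scaleChar]

lemma cc_scaleChar [NeZero n] [NeZero N] (h : n ∣ N) (A : Rep.{0} k G)
    (χ : G →* Multiplicative (ZMod n)) (a : A.ρ.invariants) :
    cc A (scaleChar h χ) a = cc A χ a := by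
  rw [cc_apply, cc_apply, cupChar_scaleChar]

end Scale

section Main

variable {G : Type} [Group G] {n d : ℕ} [NeZero n] [NeZero d] {k : Type} [CommRing k]

/-- **Cyclic computation.**  `cc A χ a = m • cc A ψ a` with `m * n = χ̃(σ) * d`, for the
generating character `ψ` of the cyclic group `G = ⟨σ⟩` of order `d`. -/
theorem cc_eq_nsmul_cc_gen (A : Rep.{0} k G) {σ : G} {ψ : G →* Multiplicative (ZMod d)}
    (hψ : IsGenChar ψ σ) (χ : G →* Multiplicative (ZMod n)) (a : A.ρ.invariants) :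
    ∃ m : ℕ, m * n = lift χ σ * d ∧ cc A χ a = m • cc A ψ a := by
  have hn : 0 < n := Nat.pos_of_ne_zero (NeZero.ne n)
  have hd : 0 < d := Nat.pos_of_ne_zero (NeZero.ne d)
  have : NeZero (n * d) := ⟨(Nat.mul_pos hn hd).ne'⟩
  have h₁ : n ∣ n * d := Dvd.intro _ rfl
  have h₂ : d ∣ n * d := Dvd.intro_left _ rfl
  -- `n ∣ χ̃(σ) * d`
  have hdvd : n ∣ lift χ σ * d := by
    have h1 : χ σ ^ d = 1 := by rw [← map_pow, hψ.pow_card, map_one]
    have h2 : d • Multiplicative.toAdd (χ σ) = 0 := by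
      rw [← toAdd_pow, h1, toAdd_one]
    have h3 : ((lift χ σ * d : ℕ) : ZMod n) = 0 := by
      rw [Nat.cast_mul, lift, ZMod.natCast_zmod_val, mul_comm, ← nsmul_eq_mul]
      exact h2
    exact (ZMod.natCast_eq_zero_iff _ _).1 h3
  obtain ⟨m, hm⟩ := hdvd
  refine ⟨m, by rw [hm, mul_comm], ?_⟩
  -- the two rescaled characters
  have e1 : scaleAdd h₁ (Multiplicative.toAdd (χ σ)) = ((lift χ σ * d : ℕ) : ZMod (n * d)) := by
    have : Multiplicative.toAdd (χ σ) = ((lift χ σ : ℕ) : ZMod n) :=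
      (ZMod.natCast_zmod_val _).symm
    rw [this, scaleAdd_natCast, Nat.mul_div_cancel_left _ hn]
  have e2 : scaleAdd h₂ (1 : ZMod d) = ((n : ℕ) : ZMod (n * d)) := by
    have : (1 : ZMod d) = ((1 : ℕ) : ZMod d) := by simp
    rw [this, scaleAdd_natCast, Nat.mul_div_cancel _ hd, one_mul]
  have hσ : scaleChar h₁ χ σ = (scaleChar h₂ ψ ^ m) σ := by
    apply Multiplicative.toAdd.injective
    rw [MonoidHom.pow_apply, toAdd_pow, toAdd_scaleChar, toAdd_scaleChar, hψ.map_gen,
      toAdd_ofAdd, e1, e2, hm, Nat.cast_mul, nsmul_eq_mul]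
    exact mul_comm _ _
  have hpow : scaleChar h₁ χ = scaleChar h₂ ψ ^ m := by
    refine MonoidHom.ext fun g => ?_
    rw [← hψ.pow_lift g, map_pow, map_pow, hσ]
  rw [← cc_scaleChar h₁, hpow, cc_pow, cc_scaleChar h₂]

end Main

end Fermat.Agent.S55.G.Rec.Loc.Unif
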