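import Fermat.Agent.S55.G.Rec.Loc.Unif.Spec
import Fermat.Agent.S55.G.Rec.L2H931

/-!
# S55 / G / REC / LOC / UNIF-B2 : `FrobDictSpec`   (helper659)

The restriction to a finite Galois level `E₀ / K` (`K = fixedFld q V`) of a Frobenius element of
`V` in the norm sense is a Frobenius element in the sense of layer L.

Rings of integers: `A`, `B` = the unit balls of `K`, `E₀` (`L.exists_ringOfIntegers_eq_unitBall63`).
Key point (`card_residue_eq`): `Nat.card (ResidueField A) = q ^ f` for the residue degree `f` of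
`V` in the norm sense (`IsResidueDegree q V f`).
-/

set_option autoImplicit false
set_option linter.style.haveILetI false

noncomputable section

namespace Fermat.Agent.S55.G.Rec.Loc.Unif.H659

open Fermat.Agent.S55 Fermat.Agent.S55.G.Rec Fermat.Agent.S55.G.Rec.Loc
  Fermat.Agent.S55.G.Rec.H931 Polynomial

section Card

variable {q : ℕ} [Fact q.Prime] (E : IntermediateField ℚ_[q] (PadicAlgCl q))
  (A : ValuationSubring E) (hAmem : ∀ x : E, x ∈ A ↔ ‖(x : PadicAlgCl q)‖ ≤ 1)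

include hAmem

theorem mem_maximalIdeal_iff659 (x : A) :
    x ∈ IsLocalRing.maximalIdeal A ↔ ‖((x : E) : PadicAlgCl q)‖ < 1 :=
  L2_mem_maximalIdeal_iff A (L2_N E) (fun x => norm_nonneg (x : PadicAlgCl q)) hAmem x

theorem residue_pow_eq_iff659 (x : A) (m : ℕ) :
    (IsLocalRing.residue A x) ^ (q ^ m) = IsLocalRing.residue A x ↔
      ‖((x : E) : PadicAlgCl q) ^ (q ^ m) - ((x : E) : PadicAlgCl q)‖ < 1 := by
  rw [← map_pow, ← sub_eq_zero, ← map_sub, IsLocalRing.residue_eq_zero_iff,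
    mem_maximalIdeal_iff659 E A hAmem]
  rfl

theorem mem_nonunits_iff659 (y : E) : y ∈ A.nonunits ↔ ‖(y : PadicAlgCl q)‖ < 1 := by
  rw [ValuationSubring.mem_nonunits_iff_exists_mem_maximalIdeal]
  constructor
  · rintro ⟨hy, h⟩
    exact (mem_maximalIdeal_iff659 E A hAmem ⟨y, hy⟩).1 h
  · intro h
    exact ⟨(hAmem y).2 h.le, (mem_maximalIdeal_iff659 E A hAmem ⟨y, (hAmem y).2 h.le⟩).2 h⟩

/-- The residue field of the unit ball has `q ^ f` elements, `f` the residue degree in the norm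
sense. -/
theorem card_residue_eq659 (hA : L.IsLocalRingOfIntegers A) (f : ℕ) (hf : 0 < f)
    (hres : ∀ x : E, ‖(x : PadicAlgCl q)‖ ≤ 1 → ‖(x : PadicAlgCl q) ^ (q ^ f) - x‖ < 1)
    (hmin : ∀ m, 0 < m →
      (∀ x : E, ‖(x : PadicAlgCl q)‖ ≤ 1 → ‖(x : PadicAlgCl q) ^ (q ^ m) - x‖ < 1) → f ≤ m) :
    Nat.card (IsLocalRing.ResidueField A) = q ^ f := by
  classical
  have hq : q.Prime := Fact.out
  haveI : Finite (IsLocalRing.ResidueField A) := hA.2.2
  letI : Fintype (IsLocalRing.ResidueField A) := Fintype.ofFinite _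
  -- the residue characteristic is `q`
  have hqA : ((q : ℕ) : A) ∈ IsLocalRing.maximalIdeal A := by
    rw [mem_maximalIdeal_iff659 E A hAmem]
    have h1 : ((((q : ℕ) : A) : E) : PadicAlgCl q) = ((q : ℚ_[q]) : PadicAlgCl q) := by
      push_cast
      rfl
    rw [h1, L.norm_natCast_prime63 q]
    exact inv_lt_one_of_one_lt₀ (by exact_mod_cast hq.one_lt)
  have hq0 : ((q : ℕ) : IsLocalRing.ResidueField A) = 0 := by
    rw [← map_natCast (IsLocalRing.residue A)]
    exact (IsLocalRing.residue_eq_zero_iff _).2 hqA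
  haveI : CharP (IsLocalRing.ResidueField A) q := (CharP.charP_iff_prime_eq_zero hq).2 hq0
  obtain ⟨d, -, hd⟩ := FiniteField.card (IsLocalRing.ResidueField A) q
  -- `f ≤ d`
  have h1 : f ≤ d := by
    refine hmin d d.pos fun x hx => ?_
    have := (residue_pow_eq_iff659 E A hAmem ⟨x, (hAmem x).2 hx⟩ d).1 (by
      rw [← hd]; exact FiniteField.pow_card _)
    exact this
  -- `d ≤ f`
  have h2 : (d : ℕ) ≤ f := by
    have hall : ∀ y : IsLocalRing.ResidueField A, y ^ (q ^ f) = y := by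
      intro y
      obtain ⟨x, rfl⟩ := IsLocalRing.residue_surjective y
      exact (residue_pow_eq_iff659 E A hAmem x f).2 (hres x ((hAmem x).1 x.2))
    have hP0 : (X ^ q ^ f - X : (IsLocalRing.ResidueField A)[X]) ≠ 0 :=
      FiniteField.X_pow_card_pow_sub_X_ne_zero _ hf.ne' hq.one_lt
    have hdeg : (X ^ q ^ f - X : (IsLocalRing.ResidueField A)[X]).natDegree = q ^ f :=
      FiniteField.X_pow_card_pow_sub_X_natDegree_eq _ hf.ne' hq.one_lt
    have hsub : (Finset.univ : Finset (IsLocalRing.ResidueField A)) ⊆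
        (X ^ q ^ f - X : (IsLocalRing.ResidueField A)[X]).roots.toFinset := by
      intro y _
      rw [Multiset.mem_toFinset, mem_roots hP0, IsRoot.def, eval_sub, eval_pow, eval_X, hall y,
        sub_self]
    have hle : Fintype.card (IsLocalRing.ResidueField A) ≤ q ^ f := by
      calc Fintype.card (IsLocalRing.ResidueField A)
          = (Finset.univ : Finset (IsLocalRing.ResidueField A)).card := rfl
        _ ≤ (X ^ q ^ f - X : (IsLocalRing.ResidueField A)[X]).roots.toFinset.card :=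
            Finset.card_le_card hsub
        _ ≤ Multiset.card (X ^ q ^ f - X : (IsLocalRing.ResidueField A)[X]).roots :=
            Multiset.toFinset_card_le _
        _ ≤ (X ^ q ^ f - X : (IsLocalRing.ResidueField A)[X]).natDegree := card_roots' _
        _ = q ^ f := hdeg
    rw [hd] at hle
    exact (Nat.pow_le_pow_iff_right hq.one_lt).1 hle
  rw [Nat.card_eq_fintype_card, hd, le_antisymm h1 h2]

end Card

/-- **UNIF-B2** -/
theorem frobDict : FrobDictSpec := by
  intro q _ V hV E₀ _ _ φ hφ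
  obtain ⟨hφV, f, ⟨hfpos, hfres, hfmin⟩, hφf⟩ := hφ
  haveI : FiniteDimensional ℚ_[q] (fixedFld q V) := L2_finiteDimensional hV
  have h1 : FiniteDimensional ℚ_[q] ↥E₀ := Module.Finite.trans (fixedFld q V) E₀
  haveI : FiniteDimensional ℚ_[q] (E₀.restrictScalars ℚ_[q]) := h1
  obtain ⟨A, hA, hAmem⟩ := L.exists_ringOfIntegers_eq_unitBall63 q (fixedFld q V)
  obtain ⟨B', hB', hBmem'⟩ := L.exists_ringOfIntegers_eq_unitBall63 q (E₀.restrictScalars ℚ_[q])
  have hfix : ∀ x : PadicAlgCl q, x ∈ fixedFld q V → IsFixedBy q V x := fun x hx =>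
    (L2_mem_E_iff x).1 hx
  have hcard : Nat.card (IsLocalRing.ResidueField A) = q ^ f :=
    card_residue_eq659 (fixedFld q V) A hAmem hA f hfpos
      (fun x hx => hfres x (hfix x x.2) hx)
      (fun m hm h => hfmin m hm fun x hx hx1 => h ⟨x, (L2_mem_E_iff x).2 hx⟩ hx1)
  have hnu : ∀ y : ↥(E₀.restrictScalars ℚ_[q]), y ∈ B'.nonunits ↔ ‖(y : PadicAlgCl q)‖ < 1 :=
    mem_nonunits_iff659 (E₀.restrictScalars ℚ_[q]) B' hBmem'
  -- transport to `↥E₀` (definitionally the same field)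
  obtain ⟨B, hB, hBmem, hBnu⟩ : ∃ B : ValuationSubring ↥E₀, L.IsLocalRingOfIntegers B ∧
      (∀ x : ↥E₀, x ∈ B ↔ ‖(x : PadicAlgCl q)‖ ≤ 1) ∧
      (∀ y : ↥E₀, y ∈ B.nonunits ↔ ‖(y : PadicAlgCl q)‖ < 1) :=
    ⟨B', hB', hBmem', hnu⟩
  refine ⟨A, B, hA, hB, fun x hx => ?_⟩
  rw [hcard, hBnu]
  have hx1 : ‖((x : E₀) : PadicAlgCl q)‖ ≤ 1 := (hBmem x).1 hx
  have key := hφf (x : PadicAlgCl q) hx1
  have hcoe : (((resHom q V E₀ ⟨φ, hφV⟩ x - x ^ q ^ f : E₀)) : PadicAlgCl q) =
      φ (x : PadicAlgCl q) - (x : PadicAlgCl q) ^ q ^ f := by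
    have := resHom_apply_coe q V E₀ ⟨φ, hφV⟩ x
    push_cast
    rw [this]
  rw [hcoe]
  exact key

end Fermat.Agent.S55.G.Rec.Loc.Unif.H659
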