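import Fermat.Agent.S55.G.Rec.Loc.Unif.Spec
import Fermat.Agent.S55.G.Rec.Loc.Unif.Cyc
import Fermat.Agent.S55.L.UnrInv.PackInv

/-!
# S55 / G / REC / LOC-UNIF : the glue   (helper477)

`unif_of : (closed specs of layer L) → CharDescentSpec → UnramDictSpec → FrobDictSpec →
  UnifDictSpec → UnifSpec`.

* `inv_cc_unramified` (abstract fields `K ⊆ E`): for `E/K` unramified with Frobenius `φ₀`,
  uniformizer `π` and ANY character `χ₀` of `Gal(E/K)`:
  `inv (π ∪ δχ₀) = χ̃₀(φ₀) / n`.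
-/

set_option autoImplicit false

noncomputable section

namespace Fermat.Agent.S55.G.Rec.Loc.Unif

open groupCohomology Fermat.Agent.S55.G.Rec Fermat.Agent.S55.G.Rec.Loc

/-! ### Abstract part -/

section Abstract

variable {K E : Type} [Field K] [Field E] [Algebra K E]

/-- An element of `Kˣ` as an invariant of the Galois module `Eˣ`. -/
def baseInv (π : Kˣ) : (L.unitsRep K E).ρ.invariants :=
  invariantOfFixed (G := E ≃ₐ[K] E) (Units.map (algebraMap K E : K →* E) π) (fun g => by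
    apply Units.ext
    change g (algebraMap K E (π : K)) = algebraMap K E (π : K)
    exact g.commutes _)

lemma baseInv_coe (π : Kˣ) :
    ((baseInv (E := E) π : (L.unitsRep K E).ρ.invariants) : L.unitsRep K E) =
      Additive.ofMul (Units.map (algebraMap K E : K →* E) π) := rfl

variable [FiniteDimensional K E] [IsGalois K E]

omit [FiniteDimensional K E] [IsGalois K E] in
lemma isCyclicCocycle_cupChar {φ₀ : E ≃ₐ[K] E}
    (hd : NeZero (Module.finrank K E))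
    {ψ : (E ≃ₐ[K] E) →* Multiplicative (ZMod (Module.finrank K E))} (hψ : IsGenChar ψ φ₀)
    (π : Kˣ) :
    L.IsCyclicCocycle φ₀ π (cupChar (L.unitsRep K E) ψ (baseInv π)) := by
  intro i j hi hj
  rw [cupChar_apply]
  have hc : carry ψ (φ₀ ^ i) (φ₀ ^ j) = (i + j) / Module.finrank K E := by
    unfold carry
    rw [hψ.lift_pow_of_lt hi, hψ.lift_pow_of_lt hj]
  rw [hc]
  by_cases h : i + j < Module.finrank K E
  · rw [if_pos h, Nat.div_eq_of_lt h, zero_smul]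
    rfl
  · rw [if_neg h]
    have : (i + j) / Module.finrank K E = 1 := by
      apply Nat.div_eq_of_lt_le
      · rw [one_mul]; exact Nat.le_of_not_lt h
      · omega
    rw [this, one_smul]
    rfl

/-- **Unramified formula at finite level**: `inv (π ∪ δχ₀) = χ̃₀(φ₀) / n`. -/
theorem inv_cc_unramified [L.IsLocalFld K] (J : L.InvFamily)
    (hu : L.IsUnramifiedExt K E) (A : ValuationSubring K) (hA : L.IsLocalRingOfIntegers A)
    (φ₀ : E ≃ₐ[K] E) (hF : L.IsFrobeniusElt K E φ₀) (hgen : ∀ g, g ∈ Subgroup.zpowers φ₀)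
    (π : Kˣ) (hπ : L.IsUniformizer A (π : K))
    {n : ℕ} [NeZero n] (χ₀ : (E ≃ₐ[K] E) →* Multiplicative (ZMod n)) :
    J.inv K E (L.cls (cupChar (L.unitsRep K E) χ₀ (baseInv π))) =
      ((((lift χ₀ φ₀ : ℕ) : ℚ) / (n : ℚ) : ℚ) : AddCircle (1 : ℚ)) := by
  have hdpos : 0 < Module.finrank K E := Module.finrank_pos
  have hd : NeZero (Module.finrank K E) := ⟨hdpos.ne'⟩
  have hn : 0 < n := Nat.pos_of_ne_zero (NeZero.ne n)
  obtain ⟨ψ, hψ⟩ := exists_isGenChar φ₀ hgen (IsGalois.card_aut_eq_finrank K E)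
  have h1 : J.inv K E (L.cls (cupChar (L.unitsRep K E) ψ (baseInv π))) =
      (((Module.finrank K E : ℚ)⁻¹ : ℚ) : AddCircle (1 : ℚ)) :=
    J.inv_unramified K E hu A hA φ₀ hF π hπ _ (isCyclicCocycle_cupChar hd hψ π)
  obtain ⟨m, hm, hcc⟩ := cc_eq_nsmul_cc_gen (L.unitsRep K E) hψ χ₀ (baseInv π)
  have h2 : L.cls (cupChar (L.unitsRep K E) χ₀ (baseInv π)) =
      m • L.cls (cupChar (L.unitsRep K E) ψ (baseInv π)) := hcc
  rw [h2, map_nsmul, h1, ← AddCircle.coe_nsmul]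
  congr 1
  rw [nsmul_eq_mul]
  have hn' : (n : ℚ) ≠ 0 := by exact_mod_cast hn.ne'
  have hd' : (Module.finrank K E : ℚ) ≠ 0 := by exact_mod_cast hdpos.ne'
  have hm' : (m : ℚ) * n = (lift χ₀ φ₀ : ℚ) * (Module.finrank K E : ℚ) := by exact_mod_cast hm
  field_simp
  linarith

end Abstract

/-! ### The glue -/

section Glue

variable (q : ℕ) [Fact q.Prime] (V : Subgroup (PadicAlgCl q ≃ₐ[ℚ_[q]] PadicAlgCl q))

lemma unitsIncl_baseInv (E₀ : IntermediateField (fixedFld q V) (PadicAlgCl q))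
    (πK : (fixedFld q V)ˣ) (π : (PadicAlgCl q)ˣ)
    (h : (((πK : fixedFld q V) : PadicAlgCl q)) = (π : PadicAlgCl q)) :
    unitsIncl q V E₀ (Units.map (algebraMap (fixedFld q V) E₀ : (fixedFld q V) →* E₀) πK) = π := by
  apply Units.ext
  exact h

lemma isAbsInflation_cupChar (E₀ : IntermediateField (fixedFld q V) (PadicAlgCl q))
    [Normal (fixedFld q V) E₀] {n : ℕ} [NeZero n] (χ : ↥V →* Multiplicative (ZMod n))
    (χ₀ : (E₀ ≃ₐ[fixedFld q V] E₀) →* Multiplicative (ZMod n))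
    (hχ : ∀ g : ↥V, χ g = χ₀ (resHom q V E₀ g))
    (πK : (fixedFld q V)ˣ) (π : (PadicAlgCl q)ˣ)
    (h : (((πK : fixedFld q V) : PadicAlgCl q)) = (π : PadicAlgCl q))
    (c : ↥(levelCocycles₂ (lHom q V) (lModOn q V)))
    (hc : IsCupChar (toLMod q V π) χ (c : ↥V × ↥V → lModOn q V)) :
    IsAbsInflation q V E₀ (cupChar (L.unitsRep (fixedFld q V) E₀) χ₀ (baseInv πK)) c := by
  unfold IsAbsInflation
  funext p
  obtain ⟨g, g'⟩ := p
  rw [hc g g']
  have h1 : carry χ₀ (resHom q V E₀ g) (resHom q V E₀ g') =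
      ((Multiplicative.toAdd (χ g)).val + (Multiplicative.toAdd (χ g')).val) / n := by
    unfold carry lift
    rw [← hχ g, ← hχ g']
  have h2 : inflCochain₂ q V E₀
      (cupChar (L.unitsRep (fixedFld q V) E₀) χ₀ (baseInv πK) :
        (E₀ ≃ₐ[fixedFld q V] E₀) × (E₀ ≃ₐ[fixedFld q V] E₀) → L.unitsRep (fixedFld q V) E₀)
      (g, g') =
      Additive.ofMul (unitsIncl q V E₀
        ((Units.map (algebraMap (fixedFld q V) E₀ : (fixedFld q V) →* E₀) πK) ^
          carry χ₀ (resHom q V E₀ g) (resHom q V E₀ g'))) := rfl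
  rw [h2, map_pow, unitsIncl_baseInv q V E₀ πK π h, h1]
  rfl

/-- **LOC-UNIF** from its sub-leaves. -/
theorem unif_of (h0 : L.RingOfIntegersUniqueSpec) (h1 : L.FiniteExtSpec)
    (hcyc : L.UnramifiedCyclicSpec) (hint : L.UnrInv.IntegersComapSpec)
    (hin : L.UnrInv.UnramifiedInertiaSpec)
    (hA : CharDescentSpec) (hB1 : UnramDictSpec) (hB2 : FrobDictSpec) (hB3 : UnifDictSpec) :
    UnifSpec := by
  intro q _ V _ hV n _ χ hχ φ hφ π hπ c hc J
  obtain ⟨E₀, hFD, hGal, χ₀, hunr, hχ₀⟩ := hA q V hV n χ hχ π hπ c hc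
  have hu : L.IsUnramifiedExt (fixedFld q V) E₀ := hB1 q V hV E₀ hunr
  have hF : L.IsFrobeniusElt (fixedFld q V) E₀ (resHom q V E₀ ⟨φ, hφ.1⟩) :=
    hB2 q V hV E₀ φ hφ
  obtain ⟨A, πK, hAint, hπK, hcoe⟩ := hB3 q V hV π hπ
  obtain ⟨P⟩ := L.UnrInv.exists_unrPack h0 h1 hcyc hint hin hu
  have hPφ : resHom q V E₀ ⟨φ, hφ.1⟩ = P.φ := P.frob_unique h0 h1 hF
  have hgen : ∀ g, g ∈ Subgroup.zpowers (resHom q V E₀ ⟨φ, hφ.1⟩) := by
    rw [hPφ]; exact P.gen
  refine ⟨E₀, hFD, hGal, cupChar (L.unitsRep (fixedFld q V) E₀) χ₀ (baseInv πK),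
    isAbsInflation_cupChar q V E₀ χ χ₀ hχ₀ πK π hcoe c hc, ?_⟩
  rw [inv_cc_unramified J hu A hAint _ hF hgen πK hπK χ₀]
  unfold lift
  rw [← hχ₀]

end Glue

end Fermat.Agent.S55.G.Rec.Loc.Unif
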