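import Fermat.Agent.S55.G.Rec.Loc.Unif.Spec
import Fermat.Agent.S55.G.Rec.Loc.OpenH478
import Fermat.Agent.S55.L.Inst63

/-!
# S55 / G / REC / LOC, leaf LOC-UNIF-B3 `UnifDictSpec`   (helper123)

A uniformizer `π` of `K = ℚ̄_q^V` in the norm sense (fixed by `V`, `0 < ‖π‖ < 1`, of maximal norm
in the open unit ball of `K`) is a uniformizer of the unit ball `A` of `K` in the sense of
layer L: `π` generates the maximal ideal of the discrete valuation ring `A`, hence is
irreducible.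

Main result: `unifDict : UnifDictSpec` (no hypotheses).
-/

set_option autoImplicit false
set_option linter.style.haveILetI false
set_option linter.unusedSectionVars false

noncomputable section

namespace Fermat.Agent.S55.G.Rec.Loc.Unif.H123

open Fermat.Agent.S55.G.Rec Fermat.Agent.S55.G.Rec.Loc Fermat.Agent.S55.G.Rec.Loc.Unif

section Abstract

variable {q : ℕ} [Fact q.Prime] (K : IntermediateField ℚ_[q] (PadicAlgCl q))
  (A : ValuationSubring K) (hA : ∀ x : K, x ∈ A ↔ ‖(x : PadicAlgCl q)‖ ≤ 1)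

include hA

/-- a nonunit of the unit ball has norm `< 1` -/
lemma norm_lt_one_of_not_isUnit (x : A) (hx : ¬ IsUnit x) : ‖((x : K) : PadicAlgCl q)‖ < 1 := by
  have h1 : ‖((x : K) : PadicAlgCl q)‖ ≤ 1 := (hA x).1 x.2
  rcases lt_or_eq_of_le h1 with h | h
  · exact h
  · exfalso
    apply hx
    have hx0 : (x : K) ≠ 0 := by
      intro h0
      rw [h0] at h
      simp at h
    have hinv : (x : K)⁻¹ ∈ A := by
      rw [hA]
      have : (((x : K)⁻¹ : K) : PadicAlgCl q) = ((x : K) : PadicAlgCl q)⁻¹ := rfl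
      rw [this, norm_inv, h, inv_one]
    refine ⟨⟨x, ⟨(x : K)⁻¹, hinv⟩, ?_, ?_⟩, rfl⟩
    · apply Subtype.ext
      show (x : K) * (x : K)⁻¹ = 1
      exact mul_inv_cancel₀ hx0
    · apply Subtype.ext
      show (x : K)⁻¹ * (x : K) = 1
      exact inv_mul_cancel₀ hx0

/-- an element of norm `< 1` is not a unit of the unit ball -/
lemma not_isUnit_of_norm_lt_one (x : A) (hx : ‖((x : K) : PadicAlgCl q)‖ < 1) : ¬ IsUnit x := by
  rintro ⟨u, rfl⟩
  have h1 : ‖(((u : A) : K) : PadicAlgCl q)‖ * ‖((((u⁻¹ : Aˣ) : A) : K) : PadicAlgCl q)‖ = 1 := by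
    rw [← norm_mul]
    have : ((((u : A) : K) : PadicAlgCl q)) * (((((u⁻¹ : Aˣ) : A) : K) : PadicAlgCl q)) = 1 := by
      have h2 : ((u : A) * ((u⁻¹ : Aˣ) : A)) = 1 := u.mul_inv
      have h3 := congrArg (fun a : A => ((a : K) : PadicAlgCl q)) h2
      exact h3
    rw [this, norm_one]
  have h2 : ‖((((u⁻¹ : Aˣ) : A) : K) : PadicAlgCl q)‖ ≤ 1 := (hA _).1 (Subtype.mem _)
  have h3 : 0 ≤ ‖(((u : A) : K) : PadicAlgCl q)‖ := norm_nonneg _
  nlinarith [norm_nonneg ((((u⁻¹ : Aˣ) : A) : K) : PadicAlgCl q)]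

/-- An element of maximal norm in the open unit ball generates the maximal ideal of the unit
ball. -/
lemma maximalIdeal_eq_span (π : K) (hπ0 : π ≠ 0) (hπ1 : ‖(π : PadicAlgCl q)‖ < 1)
    (hmax : ∀ x : K, ‖(x : PadicAlgCl q)‖ < 1 → ‖(x : PadicAlgCl q)‖ ≤ ‖(π : PadicAlgCl q)‖) :
    IsLocalRing.maximalIdeal A = Ideal.span {(⟨π, (hA π).2 hπ1.le⟩ : A)} := by
  apply le_antisymm
  · intro x hx
    have hxu : ¬ IsUnit x := (IsLocalRing.mem_maximalIdeal x).1 hx
    have hx1 := norm_lt_one_of_not_isUnit K A hA x hxu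
    have hle := hmax x hx1
    have hπn : 0 < ‖(π : PadicAlgCl q)‖ := by
      rw [norm_pos_iff]
      intro h
      exact hπ0 (Subtype.ext h)
    have hdiv : (x : K) * π⁻¹ ∈ A := by
      rw [hA]
      have : (((x : K) * π⁻¹ : K) : PadicAlgCl q) = ((x : K) : PadicAlgCl q) *
          (π : PadicAlgCl q)⁻¹ := rfl
      rw [this, norm_mul, norm_inv, ← div_eq_mul_inv, div_le_one hπn]
      exact hle
    rw [Ideal.mem_span_singleton]
    refine ⟨⟨(x : K) * π⁻¹, hdiv⟩, ?_⟩
    apply Subtype.ext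
    show (x : K) = π * ((x : K) * π⁻¹)
    field_simp
  · rw [Ideal.span_le, Set.singleton_subset_iff]
    exact (IsLocalRing.mem_maximalIdeal _).2
      (not_isUnit_of_norm_lt_one K A hA _ hπ1)

end Abstract

/-- **LOC-UNIF-B3** (`UnifDictSpec` of `Loc/Unif/Spec.lean`). -/
theorem unifDict : UnifDictSpec := by
  intro q _ V hV π hπ
  obtain ⟨hfix, hπ0, hπ1, hmax⟩ := hπ
  haveI : FiniteDimensional ℚ_[q] (fixedFld q V) := (H478.openSpec q V hV).1
  obtain ⟨A, hAint, hA⟩ := L.exists_ringOfIntegers_eq_unitBall63 q (fixedFld q V)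
  have hmem : (π : PadicAlgCl q) ∈ fixedFld q V := by
    rw [IntermediateField.mem_fixedField_iff]
    intro τ hτ
    exact hfix τ hτ
  have hπK0 : (⟨(π : PadicAlgCl q), hmem⟩ : fixedFld q V) ≠ 0 := by
    intro h
    exact hπ0 (congrArg Subtype.val h)
  refine ⟨A, Units.mk0 ⟨(π : PadicAlgCl q), hmem⟩ hπK0, hAint, ?_, rfl⟩
  haveI : IsDiscreteValuationRing A := hAint.1
  refine ⟨(hA _).2 hπ1.le, ?_⟩
  rw [IsDiscreteValuationRing.irreducible_iff_uniformizer]
  exact maximalIdeal_eq_span (fixedFld q V) A hA ⟨(π : PadicAlgCl q), hmem⟩ hπK0 hπ1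
    (fun x hx => hmax x (fun τ hτ => by
      have := (IntermediateField.mem_fixedField_iff V (x : PadicAlgCl q)).1 x.2 τ hτ
      exact this) hx)

end Fermat.Agent.S55.G.Rec.Loc.Unif.H123

end
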